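/-
S48 (Deligne-Serre), part D1.  Frozen INTERFACE between the geometric parts
(X1, An1, Coh1, B1, C1: "Eichler-Shimura for X_1(M)") and the soft algebra (D1).
-/
import Mathlib
import Fermat.Agent.ES.D.Defs

set_option autoImplicit false

namespace Fermat.Agent.S48.D1

open Fermat.Agent.ES Fermat.Agent.ES.D

/-- the class of a good prime in `(ℤ/M)ˣ`. -/
noncomputable def gpUnit {M : ℕ} (p : GoodPrime M) : (ZMod M)ˣ :=
  ZMod.unitOfCoprime p.1 ((Nat.Prime.coprime_iff_not_dvd p.2.1).mpr p.2.2)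

@[simp] theorem coe_gpUnit {M : ℕ} (p : GoodPrime M) :
    ((gpUnit p : (ZMod M)ˣ) : ZMod M) = (p.1 : ZMod M) := rfl

/-- **The Eichler-Shimura module of level `Γ₁(M)` and exponent `l`** (think: `J_1(M)[l]`,
in practice `Kum1 M l`; `l ∣ M` in the application, `M = N l`).

`W`, `TW`, `DW` are the space `S_2(Γ₁(M))` with its Hecke operators `T_p` (`p ∤ M`) and diamond
operators `⟨d⟩` of part H; they are parameters so that part D1 does not depend on part H. -/
structure ES1Module (M l : ℕ) (W : Type) [AddCommGroup W] [Module ℂ W]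
    (TW : GoodPrime M → Module.End ℂ W) (DW : (ZMod M)ˣ → Module.End ℂ W) where
  /-- the underlying finite abelian group -/
  V : Type
  [acg : AddCommGroup V]
  [fin : Finite V]
  /-- the Galois action -/
  ρ : GQ →* Module.End ℤ V
  /-- the Hecke operators -/
  T : GoodPrime M → Module.End ℤ V
  /-- the diamond operators -/
  D : (ZMod M)ˣ → Module.End ℤ V
  T_comm : ∀ p p' : GoodPrime M, Commute (T p) (T p')
  T_D_comm : ∀ (p : GoodPrime M) (d : (ZMod M)ˣ), Commute (T p) (D d)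
  D_comm : ∀ d d' : (ZMod M)ˣ, Commute (D d) (D d')
  T_ρ_comm : ∀ (p : GoodPrime M) (σ : GQ), Commute (T p) (ρ σ)
  D_ρ_comm : ∀ (d : (ZMod M)ˣ) (σ : GQ), Commute (D d) (ρ σ)
  /-- every element is fixed by an open subgroup. -/
  smooth : ∀ x : V, ∃ L : IntermediateField ℚ Qb, FiniteDimensional ℚ L ∧
      ∀ σ : GQ, (∀ y ∈ L, σ y = y) → ρ σ x = x
  /-- inertia at `p ∤ M` acts trivially. -/
  unram : ∀ p : ℕ, p.Prime → ¬ p ∣ M →
    ∀ A : ValuationSubring Qb, A.LiesOverPrime p → ∀ σ ∈ A.inertiaSubgroupIn ℚ,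
      ∀ x : V, ρ σ x = x
  /-- the Eichler-Shimura relation `φ² - T_p φ + p ⟨p⟩ = 0`, `p ∤ M`. -/
  eichlerShimura : ∀ p : GoodPrime M,
    ∀ A : ValuationSubring Qb, A.LiesOverPrime p.1 → ∀ σ : GQ, A.IsFrobeniusAt σ p.1 →
      ∀ x : V, ρ σ (ρ σ x) - T p (ρ σ x) + p.1 • D (gpUnit p) x = 0
  /-- a (noncommutative) polynomial in the `T_p`, `⟨d⟩` which kills `V` is `l` times an integral
  operator on `S_2(Γ₁(M))`. -/
  supp : ∀ P : FreeAlgebra ℤ (GoodPrime M ⊕ (ZMod M)ˣ),
    FreeAlgebra.lift ℤ (Sum.elim T D) P = 0 →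
    ∃ Q : Module.End ℂ W, IsIntegral ℤ Q ∧
      FreeAlgebra.lift ℤ (Sum.elim TW DW) P = (l : ℤ) • Q

attribute [instance] ES1Module.acg ES1Module.fin

/-- the ring of all algebraic integers. -/
abbrev Zbar : Type := integralClosure ℤ ℂ

section semisimple

variable {G K : Type*} [Group G] [Field K]

/-- a two-dimensional matrix representation without invariant line. -/
def Irr2 (r : G →* GL (Fin 2) K) : Prop :=
  ∀ U : Submodule K (Fin 2 → K),
    (∀ g, ∀ x ∈ U, (r g : Matrix (Fin 2) (Fin 2) K).mulVec x ∈ U) → U = ⊥ ∨ U = ⊤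

/-- a two-dimensional matrix representation which is irreducible or diagonal. -/
def Semisimple2 (r : G →* GL (Fin 2) K) : Prop :=
  Irr2 r ∨ ∃ ψ ψ' : G →* Kˣ, ∀ g,
    (r g : Matrix (Fin 2) (Fin 2) K) = Matrix.diagonal ![(ψ g : K), (ψ' g : K)]

end semisimple

end Fermat.Agent.S48.D1
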