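/-
S48, part D1: the abstract theorem.  A finite Galois module with Hecke and diamond operators
satisfying the Eichler-Shimura relation `φ² - T_p φ + p⟨p⟩ = 0` + a nonzero eigenfunctional
==> a 2-dimensional semisimple residual representation with determinant `δ`.
(Port of ES/D/Abstract.lean; the cyclotomic character is replaced by an arbitrary `δ`.)
-/
import Fermat.Agent.S48.D1.Defs
import Fermat.Agent.ES.D.Abstract

set_option autoImplicit false

namespace Fermat.Agent.S48.D1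

open Polynomial Fermat.Agent.ES Fermat.Agent.ES.D

section action

variable {V : Type} [AddCommGroup V] (ρ : GQ →* Module.End ℤ V)
  {K : Type} [Field K] (δ : GQ →* Kˣ)

/-- the twisted contragredient action of `G_ℚ` on `K`-valued functions on `V`:
`(σ f)(x) = δ(σ) f(σ⁻¹ x)`. -/
noncomputable def actδ : GQ →* Module.End K (V → K) where
  toFun σ := ((δ σ : Kˣ) : K) • LinearMap.funLeft K K (fun x => ρ σ⁻¹ x)
  map_one' := by
    ext f x
    simp [LinearMap.funLeft]
  map_mul' σ τ := by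
    ext f x
    simp [LinearMap.funLeft, mul_assoc, mul_left_comm]

theorem actδ_apply (σ : GQ) (f : V → K) (x : V) :
    actδ ρ δ σ f x = ((δ σ : Kˣ) : K) * f (ρ σ⁻¹ x) := rfl

theorem actδ_eq_one {σ : GQ} (h1 : ρ σ = 1) (h2 : δ σ = 1) : actδ ρ δ σ = 1 := by
  have h3 : ρ σ⁻¹ = 1 := by
    have : ρ σ⁻¹ * ρ σ = 1 := by rw [← map_mul, inv_mul_cancel, map_one]
    rwa [h1, mul_one] at this
  ext f x
  rw [actδ_apply, h2, h3]
  simp

variable {ι : Type} (T : ι → Module.End ℤ V) (lam : ι → K)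

/-- the space of additive eigenfunctionals. -/
def eigenSpaceι : Submodule K (V → K) where
  carrier := {f | (∀ x y, f (x + y) = f x + f y) ∧ ∀ i x, f (T i x) = lam i * f x}
  add_mem' := by
    rintro f g ⟨hf1, hf2⟩ ⟨hg1, hg2⟩
    refine ⟨fun x y => ?_, fun i x => ?_⟩
    · simp only [Pi.add_apply, hf1, hg1]; ring
    · simp only [Pi.add_apply, hf2 i, hg2 i]; ring
  zero_mem' := ⟨fun x y => by simp, fun i x => by simp⟩
  smul_mem' := by
    rintro c f ⟨hf1, hf2⟩
    refine ⟨fun x y => ?_, fun i x => ?_⟩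
    · simp only [Pi.smul_apply, hf1, smul_eq_mul]; ring
    · simp only [Pi.smul_apply, hf2 i, smul_eq_mul]; ring

variable {T lam}

theorem actδ_mem_eigenSpaceι (hTρ : ∀ i σ, Commute (T i) (ρ σ)) (σ : GQ) {f : V → K}
    (hf : f ∈ eigenSpaceι T lam) : actδ ρ δ σ f ∈ eigenSpaceι T lam := by
  obtain ⟨hf1, hf2⟩ := hf
  refine ⟨fun x y => ?_, fun i x => ?_⟩
  · simp only [actδ_apply, map_add, hf1]; ring
  · simp only [actδ_apply]
    have : ρ σ⁻¹ (T i x) = T i (ρ σ⁻¹ x) := by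
      have := congrArg (fun z => z x) (hTρ i σ⁻¹).eq
      exact this.symm
    rw [this, hf2 i]; ring

/-- the Eichler-Shimura relation on eigenfunctionals. -/
theorem actδ_frobenius {σ : GQ} {i j : ι} {n : ℕ}
    (hES : ∀ x, ρ σ (ρ σ x) - T i (ρ σ x) + n • T j x = 0)
    (hδ : ((δ σ : Kˣ) : K) = (n : K) * lam j) {f : V → K}
    (hf : f ∈ eigenSpaceι T lam) :
    actδ ρ δ σ (actδ ρ δ σ f) - lam i • actδ ρ δ σ f + ((δ σ : Kˣ) : K) • f = 0 := by
  obtain ⟨hf1, hf2⟩ := hf
  let F : V →+ K := AddMonoidHom.mk' f hf1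
  have hF : ∀ x, F x = f x := fun _ => rfl
  funext x
  simp only [Pi.add_apply, Pi.sub_apply, Pi.smul_apply, actδ_apply, smul_eq_mul, Pi.zero_apply]
  set y := ρ σ⁻¹ (ρ σ⁻¹ x) with hy
  have hinv : ∀ z, ρ σ (ρ σ⁻¹ z) = z := by
    intro z
    have : ρ σ * ρ σ⁻¹ = 1 := by rw [← map_mul, mul_inv_cancel, map_one]
    exact congrArg (fun w => w z) this
  have h1 : ρ σ y = ρ σ⁻¹ x := by rw [hy, hinv]
  have hvec : x - T i (ρ σ⁻¹ x) + n • T j y = 0 := by
    have := hES y
    rwa [h1, hinv] at this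
  have h3 := congrArg F hvec
  rw [map_add, map_sub, map_nsmul, map_zero, hF, hF, hF, hf2 i, hf2 j, nsmul_eq_mul] at h3
  rw [← mul_assoc, ← hδ] at h3
  linear_combination ((δ σ : Kˣ) : K) * h3

end action

section toGL2

variable {G K U : Type*} [Group G] [Field K] [AddCommGroup U] [Module K U]

/-- a representation on a two-dimensional space, in matrix form. -/
theorem exists_matrix_form [Module.Finite K U] (h2 : Module.finrank K U = 2)
    (r : G →* Module.End K U) :
    ∃ R : G →* GL (Fin 2) K,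
      (∀ g, (R g : Matrix (Fin 2) (Fin 2) K).charpoly = (r g).charpoly) ∧
      (∀ g, r g = 1 → R g = 1) ∧
      ((∀ W : Submodule K U, (∀ g, ∀ x ∈ W, r g x ∈ W) → W = ⊥ ∨ W = ⊤) → Irr2 R) := by
  classical
  let b := Module.finBasisOfFinrankEq K U h2
  let Φ := LinearMap.toMatrixAlgEquiv b
  let R : G →* GL (Fin 2) K := (Units.map (Φ : Module.End K U →* Matrix (Fin 2) (Fin 2) K)).comp
    r.toHomUnits
  have hR : ∀ g, (R g : Matrix (Fin 2) (Fin 2) K) = Φ (r g) := fun g => rfl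
  refine ⟨R, fun g => ?_, fun g hg => ?_, fun hirr W hW => ?_⟩
  · rw [hR]
    exact LinearMap.charpoly_toMatrix (r g) b
  · apply Units.ext
    rw [hR, hg, map_one]; rfl
  · have hcomp : ∀ g x, b.equivFun (r g x) = (R g : Matrix (Fin 2) (Fin 2) K).mulVec (b.equivFun x) := by
      intro g x
      rw [hR]
      exact (LinearMap.toMatrix_mulVec_repr b b (r g) x).symm
    have h1 := hirr (W.comap (b.equivFun : U →ₗ[K] (Fin 2 → K))) (by
      intro g x hx
      rw [Submodule.mem_comap] at hx ⊢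
      have := hW g _ hx
      rw [LinearEquiv.coe_coe, hcomp]
      exact this)
    have hsurj : Function.Surjective (b.equivFun : U →ₗ[K] (Fin 2 → K)) := b.equivFun.surjective
    rcases h1 with h1 | h1
    · left
      rw [← Submodule.map_comap_eq_of_surjective hsurj W, h1, Submodule.map_bot]
    · right
      rw [← Submodule.map_comap_eq_of_surjective hsurj W, h1, Submodule.map_top,
        LinearMap.range_eq_top.mpr hsurj]

end toGL2

/-- a diagonal representation. -/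
noncomputable def diag2 {G K : Type*} [Group G] [Field K] (ψ ψ' : G →* Kˣ) : G →* GL (Fin 2) K :=
  MonoidHom.toHomUnits
  { toFun := fun g => Matrix.diagonal ![(ψ g : K), (ψ' g : K)]
    map_one' := by
      have : (![((ψ 1 : Kˣ) : K), ((ψ' 1 : Kˣ) : K)] : Fin 2 → K) = fun _ => 1 := by
        funext i; fin_cases i <;> simp
      rw [this, Matrix.diagonal_one]
    map_mul' := fun g h => by
      have : (![((ψ (g * h) : Kˣ) : K), ((ψ' (g * h) : Kˣ) : K)] : Fin 2 → K)
          = fun i => (![((ψ g : Kˣ) : K), ((ψ' g : Kˣ) : K)] : Fin 2 → K) i *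
            (![((ψ h : Kˣ) : K), ((ψ' h : Kˣ) : K)] : Fin 2 → K) i := by
        funext i; fin_cases i <;> simp
      rw [this, ← Matrix.diagonal_mul_diagonal] }

theorem diag2_coe {G K : Type*} [Group G] [Field K] (ψ ψ' : G →* Kˣ) (g : G) :
    (diag2 ψ ψ' g : Matrix (Fin 2) (Fin 2) K) = Matrix.diagonal ![(ψ g : K), (ψ' g : K)] := rfl

section core

variable {V : Type} [AddCommGroup V] [Finite V] (ρ : GQ →* Module.End ℤ V)
  {K : Type} [Field K] [IsAlgClosed K] (δ : GQ →* Kˣ)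

/-- **The abstract theorem of part D1.**  `S` = set of bad primes; for a good prime `p`,
`iT p`, `iD p` are the indices of `T_p` and `⟨p⟩` in the family of operators `T`. -/
theorem exists_rep_core (hFD : FrobPowerDensity) (S : Finset ℕ)
    (hlevel : GaloisFactorsThroughFiniteLevel ρ) (hδlevel : GaloisFactorsThroughFiniteLevel δ)
    {ι : Type} (T : ι → Module.End ℤ V) (hTρ : ∀ i σ, Commute (T i) (ρ σ))
    (iT iD : ℕ → ι)
    (hES : ∀ p : ℕ, p.Prime → p ∉ S → ∀ A : ValuationSubring Qb, A.LiesOverPrime p →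
      ∀ σ : GQ, A.IsFrobeniusAt σ p → ∀ x, ρ σ (ρ σ x) - T (iT p) (ρ σ x) + p • T (iD p) x = 0)
    (lam : ι → K)
    (hδ : ∀ p : ℕ, p.Prime → p ∉ S → ∀ A : ValuationSubring Qb, A.LiesOverPrime p →
      ∀ σ : GQ, A.IsFrobeniusAt σ p → ((δ σ : Kˣ) : K) = (p : K) * lam (iD p))
    (f₀ : V →+ K) (hf₀ : f₀ ≠ 0) (hf₀T : ∀ i x, f₀ (T i x) = lam i * f₀ x) :
    ∃ r : GQ →* GL (Fin 2) K, Semisimple2 r ∧ (∀ σ : GQ, ρ σ = 1 → δ σ = 1 → r σ = 1) ∧
      (∀ σ : GQ, (r σ : Matrix (Fin 2) (Fin 2) K).det = (δ σ : K)) ∧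
      (∀ p : ℕ, p.Prime → p ∉ S → ∀ A : ValuationSubring Qb, A.LiesOverPrime p →
        ∀ σ : GQ, A.IsFrobeniusAt σ p →
          (r σ : Matrix (Fin 2) (Fin 2) K).trace = lam (iT p)) := by
  classical
  -- the eigenspace is nonzero
  have hW : eigenSpaceι T lam ≠ ⊥ := by
    intro h0
    have hmem : (f₀ : V → K) ∈ eigenSpaceι T lam := ⟨fun x y => map_add f₀ x y, hf₀T⟩
    rw [h0, Submodule.mem_bot] at hmem
    exact hf₀ (DFunLike.coe_injective hmem)
  obtain ⟨U, hUW, hU0, hUst, hUmin⟩ := exists_minimal_stable (fun σ => actδ ρ δ σ)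
    (eigenSpaceι T lam) hW (fun σ f hf => actδ_mem_eigenSpaceι ρ δ hTρ σ hf)
  let r : GQ →* Module.End K U := restrictRep (actδ ρ δ) U hUst
  have hnt : Nontrivial U := (Submodule.nontrivial_iff_ne_bot).mpr hU0
  have hirr : ∀ W : Submodule K U, (∀ g, ∀ x ∈ W, r g x ∈ W) → W = ⊥ ∨ W = ⊤ :=
    fun W hW => restrictRep_irreducible (actδ ρ δ) U hUst hUmin W hW
  have htriv : ∀ σ : GQ, ρ σ = 1 → δ σ = 1 → r σ = 1 := by
    intro σ h1 h2
    ext x
    rw [restrictRep_apply, actδ_eq_one ρ δ h1 h2]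
    rfl
  -- the Frobenius relation
  have hfrob : ∀ p : ℕ, p.Prime → p ∉ S → ∀ A : ValuationSubring Qb, A.LiesOverPrime p →
      ∀ σ : GQ, A.IsFrobeniusAt σ p →
        r σ * r σ - lam (iT p) • r σ + ((δ σ : Kˣ) : K) • (1 : Module.End K U) = 0 := by
    intro p hp hpS A hA σ hσ
    ext x
    have := actδ_frobenius ρ δ (hES p hp hpS A hA σ hσ) (hδ p hp hpS A hA σ hσ) (hUW x.2)
    exact congrFun this _
  -- the quadratic relation for all elements
  obtain ⟨L1, hL1, h1⟩ := hlevel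
  obtain ⟨L2, hL2, h2⟩ := hδlevel
  have hL : FiniteDimensional ℚ (L1 ⊔ L2 : IntermediateField ℚ Qb) :=
    IntermediateField.finiteDimensional_sup L1 L2
  have hLtriv : ∀ σ : GQ, (∀ x ∈ L1 ⊔ L2, σ x = x) → ρ σ = 1 ∧ δ σ = 1 := fun σ hσ =>
    ⟨h1 σ fun x hx => hσ x ((le_sup_left : L1 ≤ L1 ⊔ L2) hx),
      h2 σ fun x hx => hσ x ((le_sup_right : L2 ≤ L1 ⊔ L2) hx)⟩
  have hquad : ∀ σ : GQ, ∃ t : K,
      r σ * r σ - t • r σ + ((δ σ : Kˣ) : K) • (1 : Module.End K U) = 0 := by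
    intro σ
    obtain ⟨p, A, φ, j, hp, hpS, hA, hφ, hσ⟩ := hFD (L1 ⊔ L2) hL σ S
    have hτ : ∀ x ∈ L1 ⊔ L2, (σ⁻¹ * φ ^ j) x = x := by
      intro x hx
      rw [AlgEquiv.mul_apply, ← hσ x hx]
      exact σ.symm_apply_apply x
    obtain ⟨h1, h2⟩ := hLtriv _ hτ
    have hr : r σ = r φ ^ j := by
      have : r (σ⁻¹ * φ ^ j) = 1 := htriv _ h1 h2
      rw [← map_pow, ← mul_one (r σ), ← this, ← map_mul, mul_inv_cancel_left]
    have hc : δ σ = δ φ ^ j := by
      rw [← map_pow, ← mul_one (δ σ), ← h2, ← map_mul, mul_inv_cancel_left]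
    obtain ⟨s, hs⟩ := quad_pow (k := K) (R := Module.End K U) (hfrob p hp hpS A hA φ hφ) j
    refine ⟨s, ?_⟩
    rw [hr, hc, Units.val_pow_eq_pow_val]
    exact hs
  obtain ⟨hle, h2dim⟩ := twoDim r δ hirr hquad
  have hpos : 0 < Module.finrank K U := Module.finrank_pos
  rcases (by omega : Module.finrank K U = 2 ∨ Module.finrank K U = 1) with h2 | h1
  · obtain ⟨R, hR1, hR2, hR3⟩ := exists_matrix_form h2 r
    have hcoef : ∀ (σ : GQ) (t : K),
        r σ * r σ - t • r σ + ((δ σ : Kˣ) : K) • (1 : Module.End K U) = 0 →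
        (R σ : Matrix (Fin 2) (Fin 2) K).trace = t ∧
          (R σ : Matrix (Fin 2) (Fin 2) K).det = (δ σ : K) := by
      intro σ t ht
      have h3 := h2dim h2 σ t ht
      rw [← hR1, Matrix.charpoly_fin_two] at h3
      have c1 := congrArg (fun q => q.coeff 1) h3
      have c0 := congrArg (fun q => q.coeff 0) h3
      simp [coeff_X, coeff_C] at c1 c0
      exact ⟨c1, c0⟩
    refine ⟨R, Or.inl (hR3 hirr), fun σ h h' => hR2 σ (htriv σ h h'), fun σ => ?_, ?_⟩
    · obtain ⟨t, ht⟩ := hquad σ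
      exact (hcoef σ t ht).2
    · intro p hp hpS A hA σ hσ
      exact (hcoef σ _ (hfrob p hp hpS A hA σ hσ)).1
  · -- the one-dimensional case
    let ψ0 : GQ →* K := LinearMap.det.comp r
    let ψ : GQ →* Kˣ := ψ0.toHomUnits
    have hψ : ∀ σ, r σ = (ψ σ : K) • (1 : Module.End K U) :=
      fun σ => eq_det_smul_of_finrank_eq_one h1 _
    let ψ' : GQ →* Kˣ := δ * ψ⁻¹
    have hψ' : ∀ σ, (ψ σ : K) * (ψ' σ : K) = (δ σ : K) := by
      intro σ
      rw [← Units.val_mul]
      congr 1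
      change ψ σ * (δ σ * (ψ σ)⁻¹) = δ σ
      rw [mul_comm (δ σ), mul_inv_cancel_left]
    refine ⟨diag2 ψ ψ', Or.inr ⟨ψ, ψ', fun g => rfl⟩, ?_, ?_, ?_⟩
    · intro σ hσ1 hσ2
      have h3 : ψ σ = 1 := by
        apply Units.ext
        change LinearMap.det (r σ) = 1
        rw [htriv σ hσ1 hσ2, map_one]
      have h4 : ψ' σ = 1 := by
        change δ σ * (ψ σ)⁻¹ = 1
        rw [h3, hσ2]; simp
      apply Units.ext
      rw [diag2_coe, h3, h4]
      have : (![((1 : Kˣ) : K), ((1 : Kˣ) : K)] : Fin 2 → K) = fun _ => 1 := by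
        funext i; fin_cases i <;> simp
      rw [this, Matrix.diagonal_one]; rfl
    · intro σ
      rw [diag2_coe, Matrix.det_diagonal, Fin.prod_univ_two]
      exact hψ' σ
    · intro p hp hpS A hA σ hσ
      rw [diag2_coe, Matrix.trace_diagonal, Fin.sum_univ_two]
      have h3 := hfrob p hp hpS A hA σ hσ
      rw [hψ σ] at h3
      have h4 : (ψ σ : K) * ψ σ - lam (iT p) * ψ σ + (δ σ : K) = 0 := by
        obtain ⟨x, hx⟩ := exists_ne (0 : U)
        have h5 : ((ψ σ : K) * ψ σ - lam (iT p) * ψ σ + (δ σ : K)) • x = 0 := by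
          have := congrArg (fun z => z x) h3
          simp only [LinearMap.add_apply, LinearMap.sub_apply, Module.End.mul_apply,
            LinearMap.smul_apply, Module.End.one_apply, LinearMap.zero_apply, smul_smul] at this
          rw [add_smul, sub_smul]; exact this
        exact (smul_eq_zero.mp h5).resolve_right hx
      have h6 : (ψ σ : K) ≠ 0 := (ψ σ).ne_zero
      have h7 := hψ' σ
      change (ψ σ : K) + (ψ' σ : K) = lam (iT p)
      apply mul_left_cancel₀ h6
      linear_combination h4 + h7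

end core

end Fermat.Agent.S48.D1
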