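/-
S48, part D1: from an `ES1Module` and an eigenvector `F` of the Hecke and diamond operators on
`S_2(Γ₁(M))` to the residual representation (statement (I4) of the S48 plan).
-/
import Fermat.Agent.S48.D1.Abstract
import Fermat.Agent.ES.D.Support
import Fermat.Agent.ES.D.Eigen

set_option autoImplicit false

namespace Fermat.Agent.S48.D1

open Polynomial Fermat.Agent.ES Fermat.Agent.ES.D

section eigen

variable {ι W : Type*} [AddCommGroup W] [Module ℂ W] {Op : ι → Module.End ℂ W} {F : W}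
  {c : ι → Zbar}

theorem lift_apply_eigen (hOp : ∀ i, Op i F = (c i : ℂ) • F) (P : FreeAlgebra ℤ ι) :
    FreeAlgebra.lift ℤ Op P F = ((FreeAlgebra.lift ℤ c P : Zbar) : ℂ) • F := by
  induction P using FreeAlgebra.induction with
  | grade0 r =>
    simp only [eq_intCast, map_intCast, Module.End.intCast_apply, SubringClass.coe_intCast]
    rw [Int.cast_smul_eq_zsmul]
  | grade1 x =>
    rw [FreeAlgebra.lift_ι_apply, FreeAlgebra.lift_ι_apply]
    exact hOp x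
  | mul a b ha hb =>
    rw [map_mul, map_mul, Module.End.mul_apply, hb, map_smul, ha, smul_smul, mul_comm]
    rfl
  | add a b ha hb =>
    rw [map_add, map_add, LinearMap.add_apply, ha, hb, ← add_smul]
    rfl

/-- if `P(Op) = l Q` with `Q` integral then the eigenvalue of `P(Op)` on `F` vanishes mod `l`. -/
theorem lift_eigen_eq_zero (hF : F ≠ 0) (hOp : ∀ i, Op i F = (c i : ℂ) • F) {l : ℕ} (hl : 0 < l)
    {K : Type*} [Field K] (φ : Zbar →+* K) (hφl : φ (l : Zbar) = 0)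
    (P : FreeAlgebra ℤ ι) {Q : Module.End ℂ W} (hQ : IsIntegral ℤ Q)
    (hPQ : FreeAlgebra.lift ℤ Op P = (l : ℤ) • Q) :
    FreeAlgebra.lift ℤ (fun i => φ (c i)) P = 0 := by
  have hp0 : (l : ℂ) ≠ 0 := Nat.cast_ne_zero.mpr hl.ne'
  set e : Zbar := FreeAlgebra.lift ℤ c P with he
  have h1 : Q F = ((e : ℂ) / l) • F := by
    have h2 := lift_apply_eigen hOp P
    rw [hPQ, ← he] at h2
    have h3 : ((l : ℤ) • Q) F = (l : ℂ) • Q F := by
      rw [LinearMap.smul_apply]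
      simp [← Nat.cast_smul_eq_nsmul ℂ]
    rw [h3] at h2
    rw [div_eq_inv_mul, mul_smul, ← h2, smul_smul, inv_mul_cancel₀ hp0, one_smul]
  have hc : IsIntegral ℤ ((e : ℂ) / l) := isIntegral_of_eigen Q hQ hF h1
  have h4 : e = (l : Zbar) * ⟨(e : ℂ) / l, hc⟩ := by
    apply Subtype.ext
    simp only [MulMemClass.coe_mul, SubringClass.coe_natCast]
    field_simp
  have h5 : FreeAlgebra.lift ℤ (fun i => φ (c i)) P = φ e := by
    have : FreeAlgebra.lift ℤ (fun i => φ (c i))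
        = (φ.toIntAlgHom).comp (FreeAlgebra.lift ℤ c) := by
      apply FreeAlgebra.hom_ext
      funext x
      simp
    rw [this, he]
    rfl
  rw [h5, h4, map_mul, hφl, zero_mul]

end eigen

variable {M l : ℕ} {W : Type} [AddCommGroup W] [Module ℂ W]
  {TW : GoodPrime M → Module.End ℂ W} {DW : (ZMod M)ˣ → Module.End ℂ W}

theorem ES1Module.finiteLevel (E : ES1Module M l W TW DW) :
    GaloisFactorsThroughFiniteLevel E.ρ := by
  classical
  choose L hL hLx using E.smooth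
  have := Fintype.ofFinite E.V
  refine ⟨⨆ x, L x, IntermediateField.finiteDimensional_iSup_of_finite, fun σ hσ => ?_⟩
  ext x
  exact hLx x σ fun y hy => hσ y ((le_iSup L x) hy)

theorem ES1Module.op_comm (E : ES1Module M l W TW DW) (i j : GoodPrime M ⊕ (ZMod M)ˣ) :
    Commute (Sum.elim E.T E.D i) (Sum.elim E.T E.D j) := by
  rcases i with p | d <;> rcases j with p' | d'
  · exact E.T_comm p p'
  · exact E.T_D_comm p d'
  · exact (E.T_D_comm p' d).symm
  · exact E.D_comm d d'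

/-- **Main theorem of part D1, eigen-system form.**  `K` algebraically closed, `lam` a system of
eigenvalues in `K` such that `P(lam) = 0` whenever `P(T, ⟨⟩) = l Q` on `S_2(Γ₁(M))` with `Q` integral
(this is the claim (DS') of the S48 plan), and `δ` a character of `G_ℚ` of finite
level, unramified outside `M`, with `δ(Frob_p) = p lam(⟨p⟩)`. -/
theorem exists_residual_of_system (hFD : FrobPowerDensity) [NeZero M]
    (E : ES1Module M l W TW DW) {K : Type} [Field K] [IsAlgClosed K]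
    (lam : GoodPrime M ⊕ (ZMod M)ˣ → K)
    (hlam : ∀ (P : FreeAlgebra ℤ (GoodPrime M ⊕ (ZMod M)ˣ)) (Q : Module.End ℂ W), IsIntegral ℤ Q →
      FreeAlgebra.lift ℤ (Sum.elim TW DW) P = (l : ℤ) • Q → FreeAlgebra.lift ℤ lam P = 0)
    (δ : GQ →* Kˣ) (hδlevel : GaloisFactorsThroughFiniteLevel δ)
    (hδunram : ∀ p : ℕ, p.Prime → ¬ p ∣ M → ∀ A : ValuationSubring Qb, A.LiesOverPrime p →
      ∀ σ ∈ A.inertiaSubgroupIn ℚ, δ σ = 1)
    (hδ : ∀ p : GoodPrime M, ∀ A : ValuationSubring Qb, A.LiesOverPrime p.1 →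
      ∀ σ : GQ, A.IsFrobeniusAt σ p.1 → ((δ σ : Kˣ) : K) = (p.1 : K) * lam (Sum.inr (gpUnit p))) :
    ∃ r : GQ →* GL (Fin 2) K, GaloisFactorsThroughFiniteLevel r ∧ Semisimple2 r ∧
      (∀ σ : GQ, (r σ : Matrix (Fin 2) (Fin 2) K).det = (δ σ : K)) ∧
      ∀ p : GoodPrime M, ∀ A : ValuationSubring Qb, A.LiesOverPrime p.1 →
        (∀ σ ∈ A.inertiaSubgroupIn ℚ, r σ = 1) ∧
        ∀ σ : GQ, A.IsFrobeniusAt σ p.1 →
          (r σ : Matrix (Fin 2) (Fin 2) K).trace = lam (Sum.inl p) := by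
  classical
  obtain ⟨f₀, hf₀, hf₀T⟩ := exists_eigenfunctional (V := E.V) (Sum.elim E.T E.D) E.op_comm
    lam (fun P hP => by
      obtain ⟨Q, hQ, hPQ⟩ := E.supp P hP
      exact hlam P Q hQ hPQ)
  have hS : ∀ p : ℕ, p.Prime → (p ∉ M.primeFactors ↔ ¬ p ∣ M) := by
    intro p hp
    rw [Nat.mem_primeFactors]
    constructor
    · intro h h'; exact h ⟨hp, h', NeZero.ne M⟩
    · intro h h'; exact h h'.2.1
  let iT : ℕ → GoodPrime M ⊕ (ZMod M)ˣ := fun p =>
    if h : p.Prime ∧ ¬ p ∣ M then Sum.inl ⟨p, h⟩ else Sum.inr 1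
  let iD : ℕ → GoodPrime M ⊕ (ZMod M)ˣ := fun p =>
    if h : p.Prime ∧ ¬ p ∣ M then Sum.inr (gpUnit ⟨p, h⟩) else Sum.inr 1
  obtain ⟨r, hr1, hr2, hr3, hr4⟩ := exists_rep_core E.ρ δ hFD M.primeFactors E.finiteLevel hδlevel
    (Sum.elim E.T E.D) (by
      rintro (p | d) σ
      · exact E.T_ρ_comm p σ
      · exact E.D_ρ_comm d σ) iT iD (by
      intro p hp hpS A hA σ hσ x
      have h : p.Prime ∧ ¬ p ∣ M := ⟨hp, (hS p hp).mp hpS⟩
      simp only [iT, iD, dif_pos h, Sum.elim_inl, Sum.elim_inr]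
      exact E.eichlerShimura ⟨p, h⟩ A hA σ hσ x) lam (by
      intro p hp hpS A hA σ hσ
      have h : p.Prime ∧ ¬ p ∣ M := ⟨hp, (hS p hp).mp hpS⟩
      simp only [iD, dif_pos h]
      exact hδ ⟨p, h⟩ A hA σ hσ) f₀ hf₀ hf₀T
  obtain ⟨L1, hL1, h1⟩ := E.finiteLevel
  obtain ⟨L2, hL2, h2⟩ := hδlevel
  refine ⟨r, ⟨L1 ⊔ L2, IntermediateField.finiteDimensional_sup L1 L2, fun σ hσ => hr2 σ
    (h1 σ fun x hx => hσ x ((le_sup_left : L1 ≤ L1 ⊔ L2) hx))
    (h2 σ fun x hx => hσ x ((le_sup_right : L2 ≤ L1 ⊔ L2) hx))⟩, hr1, hr3, ?_⟩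
  intro p A hA
  refine ⟨fun σ hσ => hr2 σ ?_ (hδunram p.1 p.2.1 p.2.2 A hA σ hσ), fun σ hσ => ?_⟩
  · ext x
    exact E.unram p.1 p.2.1 p.2.2 A hA σ hσ x
  · have := hr4 p.1 p.2.1 ((hS p.1 p.2.1).mpr p.2.2) A hA σ hσ
    simp only [iT, dif_pos p.2] at this
    exact this

/-- **Main theorem of part D1, eigenvector form.**  `K` algebraically closed, `φ : Zbar → K` with
`φ(l) = 0`, `F ≠ 0` an eigenvector with eigenvalues `b_p`, `ψ(d)`, and `δ` a character of `G_ℚ` of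
finite level, unramified outside `M`, with `δ(Frob_p) = φ(p ψ(p))`. -/
theorem exists_residual (hFD : FrobPowerDensity) [NeZero M] (hl : 0 < l)
    (E : ES1Module M l W TW DW) {K : Type} [Field K] [IsAlgClosed K] (φ : Zbar →+* K)
    (hφl : φ (l : Zbar) = 0) (F : W) (hF : F ≠ 0) (b : GoodPrime M → Zbar)
    (ψ : (ZMod M)ˣ → Zbar) (hT : ∀ p, TW p F = (b p : ℂ) • F) (hD : ∀ d, DW d F = (ψ d : ℂ) • F)
    (δ : GQ →* Kˣ) (hδlevel : GaloisFactorsThroughFiniteLevel δ)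
    (hδunram : ∀ p : ℕ, p.Prime → ¬ p ∣ M → ∀ A : ValuationSubring Qb, A.LiesOverPrime p →
      ∀ σ ∈ A.inertiaSubgroupIn ℚ, δ σ = 1)
    (hδ : ∀ p : GoodPrime M, ∀ A : ValuationSubring Qb, A.LiesOverPrime p.1 →
      ∀ σ : GQ, A.IsFrobeniusAt σ p.1 → ((δ σ : Kˣ) : K) = φ ((p.1 : Zbar) * ψ (gpUnit p))) :
    ∃ r : GQ →* GL (Fin 2) K, GaloisFactorsThroughFiniteLevel r ∧ Semisimple2 r ∧
      (∀ σ : GQ, (r σ : Matrix (Fin 2) (Fin 2) K).det = (δ σ : K)) ∧
      ∀ p : GoodPrime M, ∀ A : ValuationSubring Qb, A.LiesOverPrime p.1 →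
        (∀ σ ∈ A.inertiaSubgroupIn ℚ, r σ = 1) ∧
        ∀ σ : GQ, A.IsFrobeniusAt σ p.1 →
          (r σ : Matrix (Fin 2) (Fin 2) K).trace = φ (b p) := by
  let c : GoodPrime M ⊕ (ZMod M)ˣ → Zbar := Sum.elim b ψ
  have hOp : ∀ i, Sum.elim TW DW i F = (c i : ℂ) • F := by
    rintro (p | d)
    · exact hT p
    · exact hD d
  exact exists_residual_of_system hFD E (fun i => φ (c i))
    (fun P Q hQ hPQ => lift_eigen_eq_zero hF hOp hl φ hφl P hQ hPQ) δ hδlevel hδunram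
    (fun p A hA σ hσ => by
      rw [hδ p A hA σ hσ, map_mul, map_natCast]
      rfl)

end Fermat.Agent.S48.D1
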