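/-
S48, part D1: the determinant character `δ = φ ∘ ε ∘ cyc_N` and the final form (I4).
-/
import Fermat.Agent.S48.D1.Main

set_option autoImplicit false

namespace Fermat.Agent.S48.D1

open Polynomial Fermat.Agent.ES Fermat.Agent.ES.D

variable {N : ℕ} [NeZero N]

theorem isIntegral_eps (ε : DirichletCharacter ℂ N) (d : ZMod N) : IsIntegral ℤ (ε d) := by
  by_cases hd : IsUnit d
  · obtain ⟨u, rfl⟩ := hd
    have h1 : (ε (u : ZMod N)) ^ (Fintype.card (ZMod N)ˣ) = 1 := by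
      rw [← map_pow, ← Units.val_pow_eq_pow_val, pow_card_eq_one, Units.val_one, map_one]
    exact IsIntegral.of_pow Fintype.card_pos (by rw [h1]; exact isIntegral_one)
  · rw [ε.map_nonunit hd]; exact isIntegral_zero

/-- the values of a Dirichlet character as algebraic integers. -/
noncomputable def epsZ (ε : DirichletCharacter ℂ N) : ZMod N →* Zbar where
  toFun d := ⟨ε d, isIntegral_eps ε d⟩
  map_one' := Subtype.ext (map_one ε)
  map_mul' a b := Subtype.ext (map_mul ε a b)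

@[simp] theorem coe_epsZ (ε : DirichletCharacter ℂ N) (d : ZMod N) : ((epsZ ε d : Zbar) : ℂ) = ε d :=
  rfl

/-- the Galois character `φ ∘ ε ∘ cyc_N`. -/
noncomputable def deltaEps (ε : DirichletCharacter ℂ N) {K : Type} [Field K] (φ : Zbar →+* K) :
    GQ →* Kˣ :=
  ((Units.map ((φ : Zbar →* K).comp (epsZ ε))).comp (cyc N))

theorem deltaEps_apply (ε : DirichletCharacter ℂ N) {K : Type} [Field K] (φ : Zbar →+* K)
    (σ : GQ) : ((deltaEps ε φ σ : Kˣ) : K) = φ (epsZ ε ((cyc N σ : (ZMod N)ˣ) : ZMod N)) := rfl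

theorem deltaEps_eq_one (ε : DirichletCharacter ℂ N) {K : Type} [Field K] (φ : Zbar →+* K)
    {σ : GQ} (h : cyc N σ = 1) : deltaEps ε φ σ = 1 := by
  simp [deltaEps, h]

variable {M l : ℕ} {W : Type} [AddCommGroup W] [Module ℂ W]
  {TW : GoodPrime M → Module.End ℂ W} {DW : (ZMod M)ˣ → Module.End ℂ W}

/-- **(I4)**: the residual representation with determinant `φ ∘ ε`. -/
theorem exists_residual_eps (hFD : FrobPowerDensity) [NeZero M] (hNM : N ∣ M) (hl : 0 < l)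
    (ε : DirichletCharacter ℂ N)
    (E : ES1Module M l W TW DW) {K : Type} [Field K] [IsAlgClosed K] (φ : Zbar →+* K)
    (hφl : φ (l : Zbar) = 0) (F : W) (hF : F ≠ 0) (b : GoodPrime M → Zbar)
    (ψ : (ZMod M)ˣ → Zbar) (hT : ∀ p, TW p F = (b p : ℂ) • F) (hD : ∀ d, DW d F = (ψ d : ℂ) • F)
    (hψ : ∀ p : GoodPrime M, φ ((p.1 : Zbar) * ψ (gpUnit p)) = φ (epsZ ε (p.1 : ZMod N))) :
    ∃ r : GQ →* GL (Fin 2) K, GaloisFactorsThroughFiniteLevel r ∧ Semisimple2 r ∧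
      (∀ σ : GQ, (r σ : Matrix (Fin 2) (Fin 2) K).det
        = φ (epsZ ε ((cyc N σ : (ZMod N)ˣ) : ZMod N))) ∧
      ∀ p : GoodPrime M, ∀ A : ValuationSubring Qb, A.LiesOverPrime p.1 →
        (∀ σ ∈ A.inertiaSubgroupIn ℚ, r σ = 1) ∧
        ∀ σ : GQ, A.IsFrobeniusAt σ p.1 →
          (r σ : Matrix (Fin 2) (Fin 2) K).trace = φ (b p) ∧
          (r σ : Matrix (Fin 2) (Fin 2) K).det = φ (epsZ ε (p.1 : ZMod N)) := by
  have hN : ∀ p : ℕ, ¬ p ∣ M → ¬ p ∣ N := fun p h h' => h (h'.trans hNM)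
  obtain ⟨L, hL, hLtriv⟩ := cyc_finiteLevel N
  obtain ⟨r, h1, h2, h3, h4⟩ := exists_residual hFD hl E φ hφl F hF b ψ hT hD (deltaEps ε φ)
    ⟨L, hL, fun σ hσ => deltaEps_eq_one ε φ (hLtriv σ hσ)⟩
    (fun p hp hpM A hA σ hσ => deltaEps_eq_one ε φ (cyc_inertia N hp (hN p hpM) hA hσ))
    (fun p A hA σ hσ => by
      rw [deltaEps_apply, cyc_frobenius N p.2.1 (hN _ p.2.2) hA hσ, hψ p])
  refine ⟨r, h1, h2, fun σ => by rw [h3, deltaEps_apply], fun p A hA => ⟨(h4 p A hA).1,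
    fun σ hσ => ⟨(h4 p A hA).2 σ hσ, ?_⟩⟩⟩
  rw [h3, deltaEps_apply, cyc_frobenius N p.2.1 (hN _ p.2.2) hA hσ]

end Fermat.Agent.S48.D1
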