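/-
S48, part D1: bridge from the valuation form of the Deligne-Serre lemma (part DS: an eigenvector
`F'` whose eigenvalues are congruent to the given system modulo `v < 1`, `v` a valuation on `ℂ`)
to the eigen-system form of the main theorem.  No integrality of the eigenvalues of `F'` is needed.
-/
import Fermat.Agent.S48.D1.Eps

set_option autoImplicit false

namespace Fermat.Agent.S48.D1

open Polynomial Fermat.Agent.ES Fermat.Agent.ES.D

section val

variable {Γ₀ : Type*} [LinearOrderedCommGroupWithZero Γ₀] (v : Valuation ℂ Γ₀)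

/-- if `v ≤ 1` on algebraic integers and `v < 1` on `ker φ` (`φ` surjective onto a field), then
conversely an algebraic integer with `v < 1` lies in `ker φ`. -/
theorem map_eq_zero_of_val_lt_one {K : Type*} [Field K] (φ : Zbar →+* K)
    (hφ : Function.Surjective φ) (hv1 : ∀ x : ℂ, IsIntegral ℤ x → v x ≤ 1)
    (hv2 : ∀ z : Zbar, φ z = 0 → v (z : ℂ) < 1) (z : Zbar) (hz : v (z : ℂ) < 1) : φ z = 0 := by
  by_contra h
  obtain ⟨w, hw⟩ := hφ (φ z)⁻¹
  have h1 : φ (z * w - 1) = 0 := by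
    rw [map_sub, map_mul, hw, map_one, mul_inv_cancel₀ h, sub_self]
  have h2 := hv2 _ h1
  have h3 : v ((z : ℂ) * (w : ℂ)) < 1 := by
    rw [map_mul, mul_comm]
    exact Right.mul_lt_one_of_le_of_lt (hv1 _ w.2) hz
  have h4 : v (1 : ℂ) < 1 := by
    have : (1 : ℂ) = (z : ℂ) * (w : ℂ) + -(((z * w - 1 : Zbar) : Zbar) : ℂ) := by
      push_cast
      ring
    rw [this]
    exact v.map_add_lt h3 (by rwa [Valuation.map_neg])
  rw [map_one] at h4
  exact lt_irrefl _ h4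

variable {ι : Type*} {β : ι → ℂ} {c : ι → Zbar}

theorem lift_val_congr (hv1 : ∀ x : ℂ, IsIntegral ℤ x → v x ≤ 1)
    (hβ : ∀ i, v (β i - (c i : ℂ)) < 1) (P : FreeAlgebra ℤ ι) :
    v (FreeAlgebra.lift ℤ β P - ((FreeAlgebra.lift ℤ c P : Zbar) : ℂ)) < 1 := by
  induction P using FreeAlgebra.induction with
  | grade0 r =>
    simp
  | grade1 x =>
    rw [FreeAlgebra.lift_ι_apply, FreeAlgebra.lift_ι_apply]
    exact hβ x
  | mul a b ha hb =>
    rw [map_mul, map_mul]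
    set x := FreeAlgebra.lift ℤ β a
    set x' := FreeAlgebra.lift ℤ β b
    set y := FreeAlgebra.lift ℤ c a
    set y' := FreeAlgebra.lift ℤ c b
    have hx' : v x' ≤ 1 := by
      have : x' = (x' - (y' : ℂ)) + (y' : ℂ) := by ring
      rw [this]
      exact v.map_add_le hb.le (hv1 _ y'.2)
    have : x * x' - ((y * y' : Zbar) : ℂ) = (x - (y : ℂ)) * x' + (y : ℂ) * (x' - (y' : ℂ)) := by
      push_cast
      ring
    rw [this]
    refine v.map_add_lt ?_ ?_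
    · rw [map_mul, mul_comm]; exact Right.mul_lt_one_of_le_of_lt hx' ha
    · rw [map_mul]; exact Right.mul_lt_one_of_le_of_lt (hv1 _ y.2) hb
  | add a b ha hb =>
    rw [map_add, map_add]
    have : FreeAlgebra.lift ℤ β a + FreeAlgebra.lift ℤ β b
        - ((FreeAlgebra.lift ℤ c a + FreeAlgebra.lift ℤ c b : Zbar) : ℂ)
        = (FreeAlgebra.lift ℤ β a - ((FreeAlgebra.lift ℤ c a : Zbar) : ℂ))
          + (FreeAlgebra.lift ℤ β b - ((FreeAlgebra.lift ℤ c b : Zbar) : ℂ)) := by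
      push_cast
      ring
    rw [this]
    exact v.map_add_lt ha hb

variable {W : Type*} [AddCommGroup W] [Module ℂ W] {Op : ι → Module.End ℂ W} {F : W}

theorem lift_apply_eigenC (hOp : ∀ i, Op i F = β i • F) (P : FreeAlgebra ℤ ι) :
    FreeAlgebra.lift ℤ Op P F = (FreeAlgebra.lift ℤ β P) • F := by
  induction P using FreeAlgebra.induction with
  | grade0 r =>
    simp only [eq_intCast, map_intCast, Module.End.intCast_apply]
    rw [Int.cast_smul_eq_zsmul]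
  | grade1 x =>
    rw [FreeAlgebra.lift_ι_apply, FreeAlgebra.lift_ι_apply]
    exact hOp x
  | mul a b ha hb =>
    rw [map_mul, map_mul, Module.End.mul_apply, hb, map_smul, ha, smul_smul, mul_comm]
  | add a b ha hb =>
    rw [map_add, map_add, LinearMap.add_apply, ha, hb, ← add_smul]

/-- **(DS') from the valuation form of Deligne-Serre.** -/
theorem system_of_eigenvector {K : Type*} [Field K] (φ : Zbar →+* K)
    (hv1 : ∀ x : ℂ, IsIntegral ℤ x → v x ≤ 1)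
    (hv3 : ∀ z : Zbar, v (z : ℂ) < 1 → φ z = 0) {l : ℕ} (hlpos : 0 < l) (hl : v (l : ℂ) < 1)
    (hF : F ≠ 0) (hOp : ∀ i, Op i F = β i • F) (hβ : ∀ i, v (β i - (c i : ℂ)) < 1)
    (P : FreeAlgebra ℤ ι) (Q : Module.End ℂ W) (hQ : IsIntegral ℤ Q)
    (hPQ : FreeAlgebra.lift ℤ Op P = (l : ℤ) • Q) :
    FreeAlgebra.lift ℤ (fun i => φ (c i)) P = 0 := by
  have hl0 : (l : ℂ) ≠ 0 := Nat.cast_ne_zero.mpr hlpos.ne'
  set e : ℂ := FreeAlgebra.lift ℤ β P with he
  have h1 : Q F = (e / l) • F := by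
    have h2 := lift_apply_eigenC hOp P
    rw [hPQ, ← he] at h2
    have h3 : ((l : ℤ) • Q) F = (l : ℂ) • Q F := by
      rw [LinearMap.smul_apply]
      simp [← Nat.cast_smul_eq_nsmul ℂ]
    rw [h3] at h2
    rw [div_eq_inv_mul, mul_smul, ← h2, smul_smul, inv_mul_cancel₀ hl0, one_smul]
  have hc : IsIntegral ℤ (e / l) := isIntegral_of_eigen Q hQ hF h1
  have he1 : v e < 1 := by
    have : e = (l : ℂ) * (e / l) := by field_simp
    rw [this, map_mul, mul_comm]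
    exact Right.mul_lt_one_of_le_of_lt (hv1 _ hc) hl
  have h4 : v ((FreeAlgebra.lift ℤ c P : Zbar) : ℂ) < 1 := by
    have : ((FreeAlgebra.lift ℤ c P : Zbar) : ℂ)
        = e + -(e - ((FreeAlgebra.lift ℤ c P : Zbar) : ℂ)) := by ring
    rw [this]
    exact v.map_add_lt he1 (by rw [Valuation.map_neg]; exact lift_val_congr v hv1 hβ P)
  have h5 : FreeAlgebra.lift ℤ (fun i => φ (c i)) P = φ (FreeAlgebra.lift ℤ c P) := by
    have : FreeAlgebra.lift ℤ (fun i => φ (c i))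
        = (φ.toIntAlgHom).comp (FreeAlgebra.lift ℤ c) := by
      apply FreeAlgebra.hom_ext
      funext x
      simp
    rw [this]
    rfl
  rw [h5, hv3 _ h4]

end val

variable {N M l : ℕ} [NeZero N] {W : Type} [AddCommGroup W] [Module ℂ W]
  {TW : GoodPrime M → Module.End ℂ W} {DW : (ZMod M)ˣ → Module.End ℂ W}

/-- **(I4), eigen-system form**: determinant `φ ∘ ε`. -/
theorem exists_residual_eps_of_system (hFD : FrobPowerDensity) [NeZero M] (hNM : N ∣ M)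
    (ε : DirichletCharacter ℂ N)
    (E : ES1Module M l W TW DW) {K : Type} [Field K] [IsAlgClosed K] (φ : Zbar →+* K)
    (lam : GoodPrime M ⊕ (ZMod M)ˣ → K)
    (hlam : ∀ (P : FreeAlgebra ℤ (GoodPrime M ⊕ (ZMod M)ˣ)) (Q : Module.End ℂ W), IsIntegral ℤ Q →
      FreeAlgebra.lift ℤ (Sum.elim TW DW) P = (l : ℤ) • Q → FreeAlgebra.lift ℤ lam P = 0)
    (hψ : ∀ p : GoodPrime M, (p.1 : K) * lam (Sum.inr (gpUnit p)) = φ (epsZ ε (p.1 : ZMod N))) :
    ∃ r : GQ →* GL (Fin 2) K, GaloisFactorsThroughFiniteLevel r ∧ Semisimple2 r ∧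
      (∀ σ : GQ, (r σ : Matrix (Fin 2) (Fin 2) K).det
        = φ (epsZ ε ((cyc N σ : (ZMod N)ˣ) : ZMod N))) ∧
      ∀ p : GoodPrime M, ∀ A : ValuationSubring Qb, A.LiesOverPrime p.1 →
        (∀ σ ∈ A.inertiaSubgroupIn ℚ, r σ = 1) ∧
        ∀ σ : GQ, A.IsFrobeniusAt σ p.1 →
          (r σ : Matrix (Fin 2) (Fin 2) K).trace = lam (Sum.inl p) ∧
          (r σ : Matrix (Fin 2) (Fin 2) K).det = φ (epsZ ε (p.1 : ZMod N)) := by
  have hN : ∀ p : ℕ, ¬ p ∣ M → ¬ p ∣ N := fun p h h' => h (h'.trans hNM)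
  obtain ⟨L, hL, hLtriv⟩ := cyc_finiteLevel N
  obtain ⟨r, h1, h2, h3, h4⟩ := exists_residual_of_system hFD E lam hlam (deltaEps ε φ)
    ⟨L, hL, fun σ hσ => deltaEps_eq_one ε φ (hLtriv σ hσ)⟩
    (fun p hp hpM A hA σ hσ => deltaEps_eq_one ε φ (cyc_inertia N hp (hN p hpM) hA hσ))
    (fun p A hA σ hσ => by
      rw [deltaEps_apply, cyc_frobenius N p.2.1 (hN _ p.2.2) hA hσ, hψ p])
  refine ⟨r, h1, h2, fun σ => by rw [h3, deltaEps_apply], fun p A hA => ⟨(h4 p A hA).1,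
    fun σ hσ => ⟨(h4 p A hA).2 σ hσ, ?_⟩⟩⟩
  rw [h3, deltaEps_apply, cyc_frobenius N p.2.1 (hN _ p.2.2) hA hσ]

/-- **(I4), valuation form**: input = the output of `DS.ds_formal`. -/
theorem exists_residual_val (hFD : FrobPowerDensity) [NeZero M] (hNM : N ∣ M) (hl : 0 < l)
    (ε : DirichletCharacter ℂ N)
    (E : ES1Module M l W TW DW) {K : Type} [Field K] [IsAlgClosed K] (φ : Zbar →+* K)
    (hφ : Function.Surjective φ) (hφl : φ (l : Zbar) = 0)
    {Γ₀ : Type*} [LinearOrderedCommGroupWithZero Γ₀] (v : Valuation ℂ Γ₀)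
    (hv1 : ∀ x : ℂ, IsIntegral ℤ x → v x ≤ 1) (hv2 : ∀ z : Zbar, φ z = 0 → v (z : ℂ) < 1)
    (F : W) (hF : F ≠ 0) (b : GoodPrime M → ℂ) (ψ : (ZMod M)ˣ → ℂ)
    (hT : ∀ p, TW p F = b p • F) (hD : ∀ d, DW d F = ψ d • F)
    (a : GoodPrime M → Zbar) (hb : ∀ p, v (b p - (a p : ℂ)) < 1)
    (χ : (ZMod M)ˣ → Zbar) (hψ : ∀ d, v (ψ d - (χ d : ℂ)) < 1)
    (hχ : ∀ p : GoodPrime M, v ((p.1 : ℂ) * ψ (gpUnit p) - ε (p.1 : ZMod N)) < 1) :
    ∃ r : GQ →* GL (Fin 2) K, GaloisFactorsThroughFiniteLevel r ∧ Semisimple2 r ∧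
      (∀ σ : GQ, (r σ : Matrix (Fin 2) (Fin 2) K).det
        = φ (epsZ ε ((cyc N σ : (ZMod N)ˣ) : ZMod N))) ∧
      ∀ p : GoodPrime M, ∀ A : ValuationSubring Qb, A.LiesOverPrime p.1 →
        (∀ σ ∈ A.inertiaSubgroupIn ℚ, r σ = 1) ∧
        ∀ σ : GQ, A.IsFrobeniusAt σ p.1 →
          (r σ : Matrix (Fin 2) (Fin 2) K).trace = φ (a p) ∧
          (r σ : Matrix (Fin 2) (Fin 2) K).det = φ (epsZ ε (p.1 : ZMod N)) := by
  have hv3 := map_eq_zero_of_val_lt_one v φ hφ hv1 hv2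
  let c : GoodPrime M ⊕ (ZMod M)ˣ → Zbar := Sum.elim a χ
  let β : GoodPrime M ⊕ (ZMod M)ˣ → ℂ := Sum.elim b ψ
  have hOp : ∀ i, Sum.elim TW DW i F = β i • F := by
    rintro (p | d)
    · exact hT p
    · exact hD d
  have hβ : ∀ i, v (β i - (c i : ℂ)) < 1 := by
    rintro (p | d)
    · exact hb p
    · exact hψ d
  have hvl : v (l : ℂ) < 1 := by
    have := hv2 (l : Zbar) hφl
    simpa using this
  refine exists_residual_eps_of_system hFD hNM ε E φ (fun i => φ (c i))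
    (fun P Q hQ hPQ => system_of_eigenvector v φ hv1 hv3 hl hvl hF hOp hβ P Q hQ hPQ) ?_
  intro p
  have h1 : φ ((p.1 : Zbar) * χ (gpUnit p) - epsZ ε (p.1 : ZMod N)) = 0 := by
    apply hv3
    have : ((((p.1 : Zbar) * χ (gpUnit p) - epsZ ε (p.1 : ZMod N) : Zbar)) : ℂ)
        = ((p.1 : ℂ) * ψ (gpUnit p) - ε (p.1 : ZMod N))
          + -((p.1 : ℂ) * (ψ (gpUnit p) - (χ (gpUnit p) : ℂ))) := by
      push_cast
      rw [coe_epsZ]
      ring
    rw [this]
    refine v.map_add_lt (hχ p) ?_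
    rw [Valuation.map_neg, map_mul]
    exact Right.mul_lt_one_of_le_of_lt (hv1 _ (isIntegral_natCast _)) (hψ _)
  rw [map_sub, map_mul, map_natCast, sub_eq_zero] at h1
  exact h1

end Fermat.Agent.S48.D1
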